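/-
Program G (S56), block GW-Euler, node (EU-1a) Brauer–Nesbitt form.  helper7.
File 1: the characteristic polynomial is multiplicative on short exact sequences
(over a field).  Mathlib only.
-/
import Mathlib

set_option autoImplicit false

namespace Fermat.Agent.TW.Euler.BN

open Polynomial Module

section SubQuot

variable {K V : Type*} [Field K] [AddCommGroup V] [Module K V] [FiniteDimensional K V]

open Module.Basis in
/-- The characteristic polynomial of an endomorphism stabilising a subspace `W` is the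
product of those on `W` and on `V ⧸ W`. -/
theorem charpoly_eq_restrict_mul_mapQ (W : Submodule K V) (e : V →ₗ[K] V)
    (he : W ≤ W.comap e) :
    e.charpoly = (e.restrict he).charpoly * (W.mapQ W e he).charpoly := by
  classical
  let m := Module.Free.ChooseBasisIndex K W
  let bW : Basis m K W := Module.Free.chooseBasis K W
  let n := Module.Free.ChooseBasisIndex K (V ⧸ W)
  let bQ : Basis n K (V ⧸ W) := Module.Free.chooseBasis K (V ⧸ W)
  let b := sumQuot bW bQ
  let A : Matrix m m K := LinearMap.toMatrix bW bW (e.restrict he)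
  let B : Matrix m n K := Matrix.of fun i l ↦
    ((sumQuot bW bQ).repr (e ((sumQuot bW bQ) (Sum.inr l)))) (Sum.inl i)
  let D : Matrix n n K := LinearMap.toMatrix bQ bQ (W.mapQ W e he)
  suffices LinearMap.toMatrix b b e = Matrix.fromBlocks A B 0 D by
    rw [← LinearMap.charpoly_toMatrix e b, this, ← LinearMap.charpoly_toMatrix _ bW,
      ← LinearMap.charpoly_toMatrix _ bQ, Matrix.charpoly_fromBlocks_zero₂₁]
  ext u v
  cases u with
  | inl i =>
    cases v with
    | inl k =>
      simp only [b, sumQuot_inl, Matrix.fromBlocks_apply₁₁, A, LinearMap.toMatrix_apply]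
      apply sumQuot_repr_inl_of_mem
    | inr l => simp [b, LinearMap.toMatrix_apply, Matrix.fromBlocks_apply₁₂, B]
  | inr j =>
    cases v with
    | inl k =>
      suffices W.mkQ (e (bW k)) = 0 by simp [LinearMap.toMatrix_apply, b, this]
      rw [← LinearMap.mem_ker, Submodule.ker_mkQ]
      exact he (Submodule.coe_mem (bW k))
    | inr l =>
      simp only [LinearMap.toMatrix_apply, sumQuot_repr_inr,
        Matrix.fromBlocks_apply₂₂, b, D]
      rw [← sumQuot_inr bW bQ l, W.mapQ_apply]
      simp

end SubQuot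

section SES

variable {K V₁ V₂ V₃ : Type*} [Field K]
  [AddCommGroup V₁] [Module K V₁] [FiniteDimensional K V₁]
  [AddCommGroup V₂] [Module K V₂] [FiniteDimensional K V₂]
  [AddCommGroup V₃] [Module K V₃] [FiniteDimensional K V₃]

/-- Intertwined endomorphisms along an injective map with the same range have the same
characteristic polynomial as the restriction. -/
theorem charpoly_eq_of_intertwine (e : V₁ ≃ₗ[K] V₂) (f₁ : V₁ →ₗ[K] V₁) (f₂ : V₂ →ₗ[K] V₂)
    (h : ∀ x, e (f₁ x) = f₂ (e x)) : f₁.charpoly = f₂.charpoly := by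
  have : f₂ = e.conj f₁ := by
    ext x
    simp [LinearEquiv.conj_apply, h]
  rw [this, LinearEquiv.charpoly_conj]

/-- The characteristic polynomial is multiplicative on short exact sequences. -/
theorem charpoly_mul_of_exact (i : V₁ →ₗ[K] V₂) (q : V₂ →ₗ[K] V₃)
    (hi : Function.Injective i) (hq : Function.Surjective q)
    (hex : LinearMap.range i = LinearMap.ker q)
    (f₁ : V₁ →ₗ[K] V₁) (f₂ : V₂ →ₗ[K] V₂) (f₃ : V₃ →ₗ[K] V₃)
    (h₁ : ∀ x, i (f₁ x) = f₂ (i x)) (h₃ : ∀ x, q (f₂ x) = f₃ (q x)) :
    f₂.charpoly = f₁.charpoly * f₃.charpoly := by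
  set W : Submodule K V₂ := LinearMap.range i with hW
  have he : W ≤ W.comap f₂ := by
    rintro _ ⟨x, rfl⟩
    exact ⟨f₁ x, h₁ x⟩
  rw [charpoly_eq_restrict_mul_mapQ W f₂ he]
  congr 1
  · -- `V₁ ≃ W`
    let e₁ : V₁ ≃ₗ[K] W := LinearEquiv.ofInjective i hi
    refine (charpoly_eq_of_intertwine e₁ f₁ _ ?_).symm
    intro x
    apply Subtype.ext
    change ((LinearEquiv.ofInjective i hi (f₁ x) : W) : V₂) =
      f₂ ((LinearEquiv.ofInjective i hi x : W) : V₂)
    rw [LinearEquiv.ofInjective_apply, LinearEquiv.ofInjective_apply]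
    exact h₁ x
  · -- `V₂ ⧸ W ≃ V₃`
    let e₃ : (V₂ ⧸ W) ≃ₗ[K] V₃ :=
      (Submodule.quotEquivOfEq W (LinearMap.ker q) hex).trans
        (q.quotKerEquivOfSurjective hq)
    refine charpoly_eq_of_intertwine e₃ _ f₃ ?_
    intro x
    induction x using Submodule.Quotient.induction_on with
    | _ x =>
      simp [e₃, h₃]

end SES

end Fermat.Agent.TW.Euler.BN
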