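/-
Program G (S56), block GW-Euler, node (EU-1a) Brauer–Nesbitt form.  helper7.
File 2: characteristic polynomials and trace functionals of elements of a `k`-algebra `A`
acting on finite-dimensional modules.  Mathlib only.
-/
import Fermat.Agent.TW.Euler.BN.CharpolyExact

set_option autoImplicit false

namespace Fermat.Agent.TW.Euler.BN

open Polynomial Module

variable (k : Type*) {A : Type*} [Field k] [Ring A] [Algebra k A]

section Defs

variable (V : Type*) [AddCommGroup V] [Module k V] [Module A V] [IsScalarTower k A V]

/-- The characteristic polynomial of `a : A` acting on the `k`-vector space `V`. -/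
noncomputable def chi [FiniteDimensional k V] (a : A) : k[X] :=
  (Algebra.lsmul k k V a).charpoly

/-- The trace functional `a ↦ tr_k(a | V)` of an `A`-module `V`. -/
noncomputable def trL : A →ₗ[k] k :=
  (LinearMap.trace k V).comp (Algebra.lsmul k k V).toLinearMap

variable {V}

theorem trL_apply (a : A) : trL k V a = LinearMap.trace k V (Algebra.lsmul k k V a) := rfl

variable (V)

theorem chi_monic [FiniteDimensional k V] (a : A) : (chi k V a).Monic :=
  LinearMap.charpoly_monic _

theorem chi_ne_zero [FiniteDimensional k V] (a : A) : chi k V a ≠ 0 :=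
  (chi_monic k V a).ne_zero

theorem chi_natDegree [FiniteDimensional k V] (a : A) :
    (chi k V a).natDegree = Module.finrank k V :=
  LinearMap.charpoly_natDegree _

theorem chi_nextCoeff [FiniteDimensional k V] (a : A) :
    (chi k V a).nextCoeff = - trL k V a := by
  classical
  let b := Module.Free.chooseBasis k V
  rw [trL_apply, LinearMap.trace_eq_matrix_trace k b, Matrix.trace_eq_neg_charpoly_nextCoeff,
    LinearMap.charpoly_toMatrix, neg_neg]
  rfl

end Defs

section Maps

variable {V₁ V₂ V₃ : Type*}
  [AddCommGroup V₁] [Module k V₁] [Module A V₁] [IsScalarTower k A V₁] [FiniteDimensional k V₁]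
  [AddCommGroup V₂] [Module k V₂] [Module A V₂] [IsScalarTower k A V₂] [FiniteDimensional k V₂]
  [AddCommGroup V₃] [Module k V₃] [Module A V₃] [IsScalarTower k A V₃] [FiniteDimensional k V₃]

/-- Isomorphic modules have the same characteristic polynomials. -/
theorem chi_congr (e : V₁ ≃ₗ[A] V₂) (a : A) : chi k V₁ a = chi k V₂ a :=
  charpoly_eq_of_intertwine (e.restrictScalars k) _ _ (fun x => by
    simp [Algebra.lsmul_apply])

/-- Isomorphic modules have the same trace functional. -/
theorem trL_congr (e : V₁ ≃ₗ[A] V₂) : trL k V₁ = trL k (A := A) V₂ := by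
  ext a
  have h := chi_nextCoeff k V₁ a
  rw [chi_congr k e a, chi_nextCoeff] at h
  exact (neg_injective h).symm

/-- Characteristic polynomials are multiplicative on short exact sequences. -/
theorem chi_mul_of_exact (i : V₁ →ₗ[A] V₂) (q : V₂ →ₗ[A] V₃)
    (hi : Function.Injective i) (hq : Function.Surjective q)
    (hex : ∀ y, q y = 0 ↔ ∃ x, i x = y) (a : A) :
    chi k V₂ a = chi k V₁ a * chi k V₃ a := by
  refine charpoly_mul_of_exact (i.restrictScalars k) (q.restrictScalars k) hi hq ?_ _ _ _
    (fun x => by simp [Algebra.lsmul_apply]) (fun x => by simp [Algebra.lsmul_apply])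
  ext y
  simp only [LinearMap.mem_range, LinearMap.mem_ker, LinearMap.restrictScalars_apply]
  exact (hex y).symm

end Maps

section SubQuot

variable {V : Type*} [AddCommGroup V] [Module k V] [Module A V] [IsScalarTower k A V]
  [Finite V]

instance (W : Submodule A V) : Finite (V ⧸ W) := Quotient.finite _

/-- Multiplicativity for a submodule and its quotient (finite modules). -/
theorem chi_sub_mul_quot (W : Submodule A V) (a : A) :
    chi k V a = chi k W a * chi k (V ⧸ W) a :=
  chi_mul_of_exact k W.subtype W.mkQ W.injective_subtype W.mkQ_surjective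
    (fun y => by
      rw [Submodule.mkQ_apply, Submodule.Quotient.mk_eq_zero]
      exact ⟨fun h => ⟨⟨y, h⟩, rfl⟩, fun ⟨x, hx⟩ => hx ▸ x.2⟩) a

end SubQuot

end Fermat.Agent.TW.Euler.BN
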