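/-
Program G (S56), block GW-Euler, node (EU-1a) Brauer–Nesbitt form.  helper7.
File 3 (BN-LI): the trace characters of pairwise non-isomorphic simple modules over a
finite field are linearly independent, in the strong form: for each `i₀` some `a : A` has
non-zero trace on `S i₀` and kills every other `S j`.
Inputs: Jacobson density (Mathlib `jacobson_density`), Schur, little Wedderburn,
surjectivity of the trace of a finite separable extension.  Mathlib only.
-/
import Fermat.Agent.TW.Euler.BN.Basic

set_option autoImplicit false
set_option linter.style.haveILetI false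

namespace Fermat.Agent.TW.Euler.BN

open Polynomial Module

variable {k A : Type*} [Field k] [Finite k] [Ring A] [Algebra k A]

/-- A simple module over a finite field carries a `k`-endomorphism commuting with all
`A`-endomorphisms and of non-zero trace. -/
theorem exists_commuting_trace_ne_zero (S : Type*) [AddCommGroup S] [Module k S] [Module A S]
    [IsScalarTower k A S] [Finite S] [IsSimpleModule A S] :
    ∃ φ : S →ₗ[k] S, (∀ (u : Module.End A S) (x : S), φ (u x) = u (φ x)) ∧
      LinearMap.trace k S φ ≠ 0 := by
  classical
  haveI : Finite (Module.End A S) :=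
    Finite.of_injective (fun u : Module.End A S => (u : S → S)) DFunLike.coe_injective
  letI : DivisionRing (Module.End A S) := Module.End.instDivisionRing
  letI : Field (Module.End A S) := littleWedderburn _
  haveI : IsScalarTower k (Module.End A S) S := ⟨fun r u x => rfl⟩
  haveI : Algebra.IsSeparable k (Module.End A S) := inferInstance
  obtain ⟨c, hc⟩ := Algebra.trace_surjective k (Module.End A S) 1
  haveI : Nontrivial S := IsSimpleModule.nontrivial A S
  have hpos : 0 < Module.finrank (Module.End A S) S := Module.finrank_pos
  let b := Module.finBasis (Module.End A S) S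
  let i₀ : Fin (Module.finrank (Module.End A S) S) := ⟨0, hpos⟩
  -- the two `k`-linear maps
  let G : S →ₗ[k] Module.End A S := (b.coord i₀).restrictScalars k
  let F : Module.End A S →ₗ[k] S :=
    ((LinearMap.toSpanSingleton (Module.End A S) S (c • b i₀))).restrictScalars k
  refine ⟨F ∘ₗ G, ?_, ?_⟩
  · intro u x
    simp only [LinearMap.coe_comp, Function.comp_apply, F, G, LinearMap.restrictScalars_apply,
      LinearMap.toSpanSingleton_apply]
    have : b.coord i₀ (u x) = u * b.coord i₀ x := by
      have := (b.coord i₀).map_smul u x
      simpa using this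
    rw [this, mul_smul]
    rfl
  · rw [LinearMap.trace_comp_comm']
    have : G ∘ₗ F = Algebra.lmul k (Module.End A S) c := by
      ext d
      simp only [LinearMap.coe_comp, Function.comp_apply, F, G, LinearMap.restrictScalars_apply,
        LinearMap.toSpanSingleton_apply, map_smul, Module.Basis.coord_apply,
        Module.Basis.repr_self, Finsupp.single_eq_same, smul_eq_mul, mul_one]
      rw [mul_comm]
      rfl
    rw [this, ← Algebra.trace_apply, hc]
    exact one_ne_zero

section Family

variable {ι : Type*} [Finite ι] (S : ι → Type*) [∀ i, AddCommGroup (S i)]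
  [∀ i, Module k (S i)] [∀ i, Module A (S i)] [∀ i, IsScalarTower k A (S i)]
  [∀ i, Finite (S i)] [∀ i, IsSimpleModule A (S i)]

omit [Finite ι] [∀ i, Finite (S i)] in
/-- Schur: no nonzero maps between non-isomorphic simple modules. -/
theorem eq_zero_of_not_iso (hS : ∀ i j, Nonempty (S i ≃ₗ[A] S j) → i = j) {i j : ι} (hij : i ≠ j)
    (g : S i →ₗ[A] S j) : g = 0 := by
  rcases g.bijective_or_eq_zero with h | h
  · exact absurd (hS i j ⟨LinearEquiv.ofBijective g h⟩) hij
  · exact h

variable (k) in
theorem exists_trace_ne_zero_and_annihilates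
    (hS : ∀ i j, Nonempty (S i ≃ₗ[A] S j) → i = j) (i₀ : ι) :
    ∃ a : A, trL k (S i₀) a ≠ 0 ∧ ∀ j, j ≠ i₀ → ∀ x : S j, a • x = 0 := by
  classical
  cases nonempty_fintype ι
  obtain ⟨φ, hφ, htr⟩ := exists_commuting_trace_ne_zero (k := k) (A := A) (S i₀)
  -- components of an endomorphism of the product
  have hcomp : ∀ (u : Module.End A (∀ j, S j)) (y : S i₀),
      u (Pi.single i₀ y) = Pi.single i₀ (u (Pi.single i₀ y) i₀) := by
    intro u y
    funext j
    by_cases hj : j = i₀
    · subst hj; simp
    · rw [Pi.single_eq_of_ne hj]
      have := eq_zero_of_not_iso S hS (Ne.symm hj)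
        ((LinearMap.proj j) ∘ₗ u ∘ₗ (LinearMap.single A S i₀))
      exact congrArg (fun g => g y) this
  have hcomp' : ∀ (u : Module.End A (∀ j, S j)) (x : ∀ j, S j),
      u x i₀ = u (Pi.single i₀ (x i₀)) i₀ := by
    intro u x
    conv_lhs => rw [← Finset.univ_sum_single x, map_sum, Finset.sum_apply]
    rw [Finset.sum_eq_single i₀]
    · intro l _ hl
      have := eq_zero_of_not_iso S hS hl
        ((LinearMap.proj i₀) ∘ₗ u ∘ₗ (LinearMap.single A S l))
      exact congrArg (fun g => g (x l)) this
    · intro h; exact absurd (Finset.mem_univ _) h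
  let f : Module.End (Module.End A (∀ j, S j)) (∀ j, S j) :=
    { toFun := fun x => Pi.single i₀ (φ (x i₀))
      map_add' := fun x y => by simp [Pi.single_add]
      map_smul' := fun u x => by
        simp only [Module.End.smul_def, RingHom.id_apply]
        rw [hcomp u (φ (x i₀)), hcomp' u x]
        congr 1
        have h1 := hφ ((LinearMap.proj i₀) ∘ₗ u ∘ₗ (LinearMap.single A S i₀)) (x i₀)
        exact h1 }
  haveI : Finite (∀ j, S j) := Pi.finite
  cases nonempty_fintype (∀ j, S j)
  obtain ⟨a, ha⟩ := jacobson_density f (Finset.univ : Finset (∀ j, S j))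
  refine ⟨a, ?_, ?_⟩
  · have : Algebra.lsmul k k (S i₀) a = φ := by
      ext y
      have := congrFun (ha (Pi.single i₀ y) (Finset.mem_univ _)) i₀
      simpa [f] using this.symm
    rw [trL_apply, this]; exact htr
  · intro j hj x
    have := congrFun (ha (Pi.single j x) (Finset.mem_univ _)) j
    simpa [f, hj] using this.symm

end Family

end Fermat.Agent.TW.Euler.BN
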