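/-
Program G (S56), block GW-Euler, node (EU-1a) Brauer–Nesbitt form.  helper7.
File 4 (BN-KL): for a finite family of pairwise non-isomorphic simple modules over a finite
field, the exponents `m i` are determined by the polynomials `∏ i, chi (S i) g ^ m i`,
`g` ranging over a spanning set of the algebra.  Strong induction on the total size:
cancel a common factor, or else all exponents are divisible by `p` (trace argument +
BN-LI) and `f ^ p = h ^ p ⟹ f = h`.  Mathlib only.
-/
import Fermat.Agent.TW.Euler.BN.TraceIndep

set_option autoImplicit false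
set_option linter.style.haveILetI false

namespace Fermat.Agent.TW.Euler.BN

open Polynomial Module

variable {k A : Type*} [Field k] [Finite k] [Ring A] [Algebra k A]

section Family

variable {ι : Type*} [Fintype ι] (S : ι → Type*) [∀ i, AddCommGroup (S i)]
  [∀ i, Module k (S i)] [∀ i, Module A (S i)] [∀ i, IsScalarTower k A (S i)]
  [∀ i, Finite (S i)] [∀ i, IsSimpleModule A (S i)]

variable (k) in
/-- Step A of the descent: equality of the products of characteristic polynomials on a spanning
set forces the multiplicities to agree in `k`. -/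
theorem natCast_eq_of_prod_eq {Gs : Set A} (hGs : Submodule.span k Gs = ⊤)
    (hS : ∀ i j, Nonempty (S i ≃ₗ[A] S j) → i = j) (m n : ι → ℕ)
    (h : ∀ g ∈ Gs, ∏ i, chi k (S i) g ^ m i = ∏ i, chi k (S i) g ^ n i) (i₀ : ι) :
    (m i₀ : k) = (n i₀ : k) := by
  classical
  have hlin : ∑ i, (m i : k) • trL k (A := A) (S i) = ∑ i, (n i : k) • trL k (A := A) (S i) := by
    apply LinearMap.ext_on hGs
    intro g hg
    have := congrArg Polynomial.nextCoeff (h g hg)
    rw [Monic.nextCoeff_prod _ _ (fun i _ => (chi_monic k (S i) g).pow _),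
      Monic.nextCoeff_prod _ _ (fun i _ => (chi_monic k (S i) g).pow _)] at this
    simp only [Monic.nextCoeff_pow (chi_monic _ _ _), chi_nextCoeff, nsmul_eq_mul, mul_neg,
      Finset.sum_neg_distrib, neg_inj] at this
    simpa [LinearMap.sum_apply] using this
  obtain ⟨a, ha, ha0⟩ := exists_trace_ne_zero_and_annihilates k S hS i₀
  have h0 : ∀ j, j ≠ i₀ → trL k (S j) a = 0 := by
    intro j hj
    rw [trL_apply]
    have : Algebra.lsmul k k (S j) a = 0 := by
      ext x
      simpa using ha0 j hj x
    rw [this, map_zero]
  have := congrArg (fun F => F a) hlin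
  simp only [LinearMap.sum_apply, LinearMap.smul_apply, smul_eq_mul] at this
  rw [Finset.sum_eq_single i₀ (fun j _ hj => by rw [h0 j hj, mul_zero]) (by simp),
    Finset.sum_eq_single i₀ (fun j _ hj => by rw [h0 j hj, mul_zero]) (by simp)] at this
  exact mul_right_cancel₀ ha this

omit [Finite k] in
/-- `f ^ p = h ^ p ⟹ f = h` in `k[X]`, `char k = p`. -/
theorem eq_of_pow_char_eq {p : ℕ} [Fact p.Prime] [CharP k p] {f h : k[X]} (hfh : f ^ p = h ^ p) :
    f = h := by
  have : (f - h) ^ p = 0 := by rw [sub_pow_char, hfh, sub_self]
  exact sub_eq_zero.mp (pow_eq_zero_iff (Fact.out : p.Prime).ne_zero |>.mp this)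

variable (k) in
/-- (BN-KL) The descent: the multiplicities are determined by the characteristic polynomials
on a spanning set. -/
theorem eq_of_prod_chi_eq {Gs : Set A} (hGs : Submodule.span k Gs = ⊤)
    (hS : ∀ i j, Nonempty (S i ≃ₗ[A] S j) → i = j) (m n : ι → ℕ)
    (h : ∀ g ∈ Gs, ∏ i, chi k (S i) g ^ m i = ∏ i, chi k (S i) g ^ n i) : m = n := by
  classical
  obtain ⟨p, hp⟩ := CharP.exists k
  haveI := hp
  have hprime : p.Prime :=
    (CharP.char_is_prime_or_zero k p).resolve_right (CharP.char_ne_zero_of_finite k p)
  haveI : Fact p.Prime := ⟨hprime⟩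
  induction' hN : (∑ i, m i + ∑ i, n i) using Nat.strong_induction_on with N ih generalizing m n
  have hmod : ∀ i, m i ≡ n i [MOD p] := fun i =>
    (CharP.natCast_eq_natCast k p).mp (natCast_eq_of_prod_eq k S hGs hS m n h i)
  by_cases hcommon : ∃ i, 0 < m i ∧ 0 < n i
  · -- cancel a common factor
    obtain ⟨i, hmi, hni⟩ := hcommon
    have key : ∀ (f : ι → ℕ), 0 < f i → ∀ g : A,
        ∏ j, chi k (S j) g ^ f j =
          chi k (S i) g * ∏ j, chi k (S j) g ^ (Function.update f i (f i - 1)) j := by
      intro f hf g
      rw [← Finset.mul_prod_erase _ _ (Finset.mem_univ i),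
        ← Finset.mul_prod_erase _ (fun j => chi k (S j) g ^ (Function.update f i (f i - 1)) j)
          (Finset.mem_univ i)]
      rw [Function.update_self, ← mul_assoc, ← pow_succ', Nat.sub_add_cancel hf]
      congr 1
      apply Finset.prod_congr rfl
      intro j hj
      rw [Function.update_of_ne (Finset.ne_of_mem_erase hj)]
    have hsum : ∀ (f : ι → ℕ), 0 < f i →
        ∑ j, f j = ∑ j, (Function.update f i (f i - 1)) j + 1 := by
      intro f hf
      rw [← Finset.add_sum_erase _ _ (Finset.mem_univ i),
        ← Finset.add_sum_erase _ (fun j => (Function.update f i (f i - 1)) j) (Finset.mem_univ i)]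
      rw [Function.update_self]
      have : ∑ j ∈ Finset.univ.erase i, (Function.update f i (f i - 1)) j =
          ∑ j ∈ Finset.univ.erase i, f j := by
        apply Finset.sum_congr rfl
        intro j hj
        rw [Function.update_of_ne (Finset.ne_of_mem_erase hj)]
      rw [this]; omega
    have h' : ∀ g ∈ Gs, ∏ j, chi k (S j) g ^ (Function.update m i (m i - 1)) j =
        ∏ j, chi k (S j) g ^ (Function.update n i (n i - 1)) j := by
      intro g hg
      have := h g hg
      rw [key m hmi g, key n hni g] at this
      exact mul_left_cancel₀ (chi_ne_zero k (S i) g) this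
    have := ih _ (by rw [← hN, hsum m hmi, hsum n hni]; omega) _ _ h' rfl
    funext j
    by_cases hj : j = i
    · subst hj
      have := congrFun this j
      rw [Function.update_self, Function.update_self] at this
      omega
    · have := congrFun this j
      rwa [Function.update_of_ne hj, Function.update_of_ne hj] at this
  · -- all multiplicities divisible by `p`
    simp only [not_exists, not_and, not_lt] at hcommon
    have hdvd : ∀ i, p ∣ m i ∧ p ∣ n i := by
      intro i
      by_cases hmi : m i = 0
      · refine ⟨hmi ▸ dvd_zero p, ?_⟩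
        have := hmod i
        rw [hmi] at this
        exact (Nat.modEq_zero_iff_dvd.mp this.symm)
      · have hni : n i = 0 := Nat.le_zero.mp (hcommon i (Nat.pos_of_ne_zero hmi))
        refine ⟨?_, hni ▸ dvd_zero p⟩
        have := hmod i
        rw [hni] at this
        exact (Nat.modEq_zero_iff_dvd.mp this)
    by_cases hzero : N = 0
    · have h0 : ∑ i, m i = 0 ∧ ∑ i, n i = 0 := by omega
      funext i
      have h1 := (Finset.sum_eq_zero_iff.mp h0.1) i (Finset.mem_univ i)
      have h2 := (Finset.sum_eq_zero_iff.mp h0.2) i (Finset.mem_univ i)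
      rw [h1, h2]
    · have hm : ∀ i, m i = p * (m i / p) := fun i => (Nat.mul_div_cancel' (hdvd i).1).symm
      have hn : ∀ i, n i = p * (n i / p) := fun i => (Nat.mul_div_cancel' (hdvd i).2).symm
      have hpow : ∀ (f : ι → ℕ) (g : A), (∀ i, f i = p * (f i / p)) →
          ∏ j, chi k (S j) g ^ f j = (∏ j, chi k (S j) g ^ (f j / p)) ^ p := by
        intro f g hf
        rw [← Finset.prod_pow]
        apply Finset.prod_congr rfl
        intro j _
        rw [← pow_mul, mul_comm, ← hf j]
      have h' : ∀ g ∈ Gs, ∏ j, chi k (S j) g ^ (m j / p) = ∏ j, chi k (S j) g ^ (n j / p) := by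
        intro g hg
        have := h g hg
        rw [hpow m g hm, hpow n g hn] at this
        exact eq_of_pow_char_eq this
      have hsm : ∑ i, m i = p * ∑ i, m i / p := by
        rw [Finset.mul_sum]; exact Finset.sum_congr rfl (fun i _ => hm i)
      have hsn : ∑ i, n i = p * ∑ i, n i / p := by
        rw [Finset.mul_sum]; exact Finset.sum_congr rfl (fun i _ => hn i)
      have hlt : (∑ i, m i / p + ∑ i, n i / p) < N := by
        have h2 : 2 ≤ p := hprime.two_le
        have hpos : 0 < ∑ i, m i / p + ∑ i, n i / p := by
          rcases Nat.eq_zero_or_pos (∑ i, m i / p + ∑ i, n i / p) with h0 | h0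
          · exfalso; apply hzero
            have : ∑ i, m i / p = 0 ∧ ∑ i, n i / p = 0 := by omega
            rw [← hN, hsm, hsn, this.1, this.2]; simp
          · exact h0
        rw [← hN, hsm, hsn, ← mul_add]
        nlinarith
      have := ih _ hlt _ _ h' rfl
      funext i
      rw [hm i, hn i, congrFun this i]

end Family

end Fermat.Agent.TW.Euler.BN
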