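/-
Program G (S56), block GW-Euler, node (EU-1a) Brauer–Nesbitt form.
SHARED CORE CONTRACTS (helper7 writes; helper6 / helper29 vendor this file byte-identically).

Vocabulary: `A := MonoidAlgebra k G`; a "finite `A`-module" is a type with
`[AddCommGroup V] [Module k V] [Module A V] [IsScalarTower k A V] [Finite V]`
(for `ρ : Representation k G V` take `ρ.asModule`; conversely `Representation.ofModule' V`);
`chi k V a : k[X]` is the characteristic polynomial of `a : A` on `V` (`BN/Basic.lean`).

DONE (theorems, origin/helper7): `BN.exists_trace_ne_zero_and_annihilates` (BN-LI) and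
`BN.eq_of_prod_chi_eq` (BN-KL).  OPEN: `BNFamOut` (helper7), `BNExOut` (helper6),
and the wrapper `BNFamOut → BNExOut → BrauerNesbittOut` (helper29).
-/
import Fermat.Agent.TW.Euler.BN.Descent
import Fermat.Agent.TW.Euler.Ind.Contracts

set_option autoImplicit false

namespace Fermat.Agent.TW.Euler.BN

open Polynomial

/-- A finite family of pairwise non-isomorphic simple finite `k[G]`-modules. -/
structure SimpleFamily (k G : Type) [Field k] [Group G] where
  /-- the index type -/
  ι : Type
  /-- the index type is finite -/
  [fintype : Fintype ι]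
  /-- the modules -/
  S : ι → Type
  [addCommGroup : ∀ i, AddCommGroup (S i)]
  [moduleBase : ∀ i, Module k (S i)]
  [moduleAlg : ∀ i, Module (MonoidAlgebra k G) (S i)]
  [tower : ∀ i, IsScalarTower k (MonoidAlgebra k G) (S i)]
  [finite : ∀ i, Finite (S i)]
  [simple : ∀ i, IsSimpleModule (MonoidAlgebra k G) (S i)]
  /-- pairwise non-isomorphic -/
  irredundant : ∀ i j, Nonempty (S i ≃ₗ[MonoidAlgebra k G] S j) → i = j

attribute [instance] SimpleFamily.fintype SimpleFamily.addCommGroup SimpleFamily.moduleBase
  SimpleFamily.moduleAlg SimpleFamily.tower SimpleFamily.finite SimpleFamily.simple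

/-- The family contains every simple finite `k[G]`-module up to isomorphism. -/
def SimpleFamily.IsComplete {k G : Type} [Field k] [Group G] (F : SimpleFamily k G) : Prop :=
  ∀ (T : Type) [AddCommGroup T] [Module (MonoidAlgebra k G) T] [Finite T]
    [IsSimpleModule (MonoidAlgebra k G) T], ∃ i, Nonempty (T ≃ₗ[MonoidAlgebra k G] F.S i)

/-- The representation carried by a member of the family. -/
noncomputable abbrev SimpleFamily.rep {k G : Type} [Field k] [Group G] (F : SimpleFamily k G)
    (i : F.ι) : Representation k G (F.S i) :=
  Representation.ofModule' (F.S i)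

/-- **(BN-FAM)** a complete irredundant family exists (`k`, `G` finite). -/
def BNFamOut : Prop :=
  ∀ (k G : Type) [Field k] [Finite k] [Group G] [Finite G],
    ∃ F : SimpleFamily k G, F.IsComplete

/-- **(BN-EX)** existence of Jordan–Hölder multiplicities w.r.t. a complete family, computing
both the characteristic polynomials and every additive invariant.  (No uniqueness.) -/
def BNExOut : Prop :=
  ∀ (k G : Type) [Field k] [Finite k] [Group G] [Finite G] (F : SimpleFamily k G),
    F.IsComplete →
    ∀ (V : Type) [AddCommGroup V] [Module k V] [Module.Finite k V] (ρ : Representation k G V),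
      ∃ m : F.ι → ℕ,
        (∀ g : G, LinearMap.charpoly (ρ g) =
          ∏ i, chi k (F.S i) (MonoidAlgebra.of k G g) ^ m i) ∧
        ∀ Φ : AddInv k G, Φ.val V ρ = ∑ i, (m i : ℤ) * Φ.val (F.S i) (F.rep i)

end Fermat.Agent.TW.Euler.BN
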