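/-
Program G (S56), block GW-Euler, node (EU-1a) Brauer–Nesbitt form.  helper6.
(BN-EX): existence of Jordan–Hölder multiplicities with respect to a complete family of simple
modules, computing the characteristic polynomials and every additive invariant.
-/
import Fermat.Agent.TW.Euler.BN.Core

set_option autoImplicit false
set_option linter.style.haveILetI false

namespace Fermat.Agent.TW.Euler.BN

open Polynomial

section Aux

variable {k G : Type} [Field k] [Group G]

/-- `ofModule'` acts through `of`. -/
theorem ofModule'_apply (M : Type) [AddCommGroup M] [Module k M] [Module (MonoidAlgebra k G) M]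
    [IsScalarTower k (MonoidAlgebra k G) M] (g : G) (x : M) :
    Representation.ofModule' (k := k) (G := G) M g x = MonoidAlgebra.of k G g • x := by
  simp [Representation.ofModule', MonoidAlgebra.lift_symm_apply]

/-- The characteristic polynomial of `of g` on `ρ.asModule` is that of `ρ g`. -/
theorem chi_asModule {V : Type} [AddCommGroup V] [Module k V] [Module.Finite k V]
    (ρ : Representation k G V) (g : G) :
    chi k ρ.asModule (MonoidAlgebra.of k G g) = LinearMap.charpoly (ρ g) := by
  refine charpoly_eq_of_intertwine ρ.asModuleEquiv _ _ ?_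
  intro x
  rw [Algebra.lsmul_apply, MonoidAlgebra.of_apply, Representation.asModuleEquiv_map_smul,
    Representation.asAlgebraHom_single, one_smul]

/-- The characteristic polynomial of `ofModule' M g` is `chi` of `of g`. -/
theorem charpoly_ofModule' (M : Type) [AddCommGroup M] [Module k M] [Module (MonoidAlgebra k G) M]
    [IsScalarTower k (MonoidAlgebra k G) M] [Module.Finite k M] (g : G) :
    LinearMap.charpoly (Representation.ofModule' (k := k) (G := G) M g)
      = chi k M (MonoidAlgebra.of k G g) := by
  have : Representation.ofModule' (k := k) (G := G) M g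
      = Algebra.lsmul k k M (MonoidAlgebra.of k G g) := by
    ext x
    rw [ofModule'_apply, Algebra.lsmul_apply]
  rw [this]
  rfl

/-- An additive invariant vanishes on the zero representation. -/
theorem AddInv_val_of_subsingleton (Φ : AddInv k G) {V : Type} [AddCommGroup V] [Module k V]
    [Module.Finite k V] [Subsingleton V] (ρ : Representation k G V) : Φ.val V ρ = 0 := by
  have h := Φ.val_exact ρ ρ ρ (0 : V →ₗ[k] V) (0 : V →ₗ[k] V)
    (fun g v => Subsingleton.elim _ _) (fun g v => Subsingleton.elim _ _)
    (Function.injective_of_subsingleton _) (fun y => ⟨0, Subsingleton.elim _ _⟩)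
    (fun y => ⟨fun _ => ⟨0, Subsingleton.elim _ _⟩, fun _ => Subsingleton.elim _ _⟩)
  linarith

/-- The characteristic polynomial of an endomorphism of the zero space is `1`. -/
theorem charpoly_of_subsingleton {V : Type} [AddCommGroup V] [Module k V] [Module.Finite k V]
    [Subsingleton V] (f : V →ₗ[k] V) : LinearMap.charpoly f = 1 := by
  refine (Polynomial.Monic.natDegree_eq_zero (LinearMap.charpoly_monic f)).mp ?_
  rw [LinearMap.charpoly_natDegree]
  exact Module.finrank_zero_of_subsingleton

end Aux

section Main

/-- **(BN-EX)**. -/
theorem bnExOut : BNExOut := by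
  classical
  intro k G _ _ _ _ F hF
  suffices H : ∀ d : ℕ, ∀ (V : Type) [AddCommGroup V] [Module k V] [Module.Finite k V]
      (ρ : Representation k G V), Module.finrank k V ≤ d →
      ∃ m : F.ι → ℕ,
        (∀ g : G, LinearMap.charpoly (ρ g) =
          ∏ i, chi k (F.S i) (MonoidAlgebra.of k G g) ^ m i) ∧
        ∀ Φ : AddInv k G, Φ.val V ρ = ∑ i, (m i : ℤ) * Φ.val (F.S i) (F.rep i) by
    intro V _ _ _ ρ
    exact H _ V ρ le_rfl
  -- the trivial case
  have triv : ∀ (V : Type) [AddCommGroup V] [Module k V] [Module.Finite k V]
      (ρ : Representation k G V), Subsingleton V →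
      ∃ m : F.ι → ℕ,
        (∀ g : G, LinearMap.charpoly (ρ g) =
          ∏ i, chi k (F.S i) (MonoidAlgebra.of k G g) ^ m i) ∧
        ∀ Φ : AddInv k G, Φ.val V ρ = ∑ i, (m i : ℤ) * Φ.val (F.S i) (F.rep i) := by
    intro V _ _ _ ρ hV
    refine ⟨0, ?_, ?_⟩
    · intro g
      rw [charpoly_of_subsingleton]
      simp
    · intro Φ
      rw [AddInv_val_of_subsingleton]
      simp
  intro d
  induction d with
  | zero =>
    intro V _ _ _ ρ hd
    exact triv V ρ (Module.finrank_zero_iff.mp (Nat.le_zero.mp hd))
  | succ d ih =>
    intro V _ _ _ ρ hd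
    by_cases hV : Subsingleton V
    · exact triv V ρ hV
    rw [not_subsingleton_iff_nontrivial] at hV
    -- the module attached to `ρ`
    haveI : Finite V := Module.finite_of_finite k
    haveI : Finite ρ.asModule := ‹Finite V›
    haveI : Nontrivial ρ.asModule := hV
    -- a simple submodule
    haveI : IsAtomic (Submodule (MonoidAlgebra k G) ρ.asModule) :=
      isAtomic_of_orderBot_wellFounded_lt wellFounded_lt
    obtain ⟨W, hW⟩ := IsAtomic.exists_atom (Submodule (MonoidAlgebra k G) ρ.asModule)
    haveI : IsSimpleModule (MonoidAlgebra k G) W := isSimpleModule_iff_isAtom.mpr hW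
    obtain ⟨i, ⟨eW⟩⟩ := hF W
    haveI : Module.Finite k W := Module.Finite.of_finite
    haveI : Module.Finite k (ρ.asModule ⧸ W) := Module.Finite.of_finite
    let ρQ : Representation k G (ρ.asModule ⧸ W) := Representation.ofModule' (ρ.asModule ⧸ W)
    let ρW : Representation k G W := Representation.ofModule' W
    -- dimensions
    have hchi : ∀ a : MonoidAlgebra k G,
        chi k ρ.asModule a = chi k W a * chi k (ρ.asModule ⧸ W) a := chi_sub_mul_quot k W
    have hdim : Module.finrank k V
        = Module.finrank k W + Module.finrank k (ρ.asModule ⧸ W) := by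
      have h1 := congrArg Polynomial.natDegree (hchi 1)
      rw [Polynomial.Monic.natDegree_mul (chi_monic k _ _) (chi_monic k _ _), chi_natDegree,
        chi_natDegree, chi_natDegree] at h1
      rw [← h1]
      exact (ρ.asModuleEquiv.finrank_eq).symm
    have hWpos : 0 < Module.finrank k W := by
      haveI : Nontrivial W := IsSimpleModule.nontrivial (MonoidAlgebra k G) W
      exact Module.finrank_pos
    obtain ⟨m', hm1, hm2⟩ := ih (ρ.asModule ⧸ W) ρQ (by omega)
    refine ⟨m' + Pi.single i 1, ?_, ?_⟩
    · intro g
      rw [← chi_asModule ρ g, hchi, chi_congr k eW, ← charpoly_ofModule' (ρ.asModule ⧸ W) g,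
        hm1 g]
      simp only [Pi.add_apply, pow_add, Finset.prod_mul_distrib]
      rw [mul_comm]
      congr 1
      rw [Finset.prod_eq_single i]
      · simp
      · intro j _ hj
        simp [hj]
      · intro hi
        exact (hi (Finset.mem_univ i)).elim
    · intro Φ
      let f : W →ₗ[k] V :=
        ρ.asModuleEquiv.toLinearMap.comp (W.subtype.restrictScalars k)
      let h : V →ₗ[k] (ρ.asModule ⧸ W) :=
        (W.mkQ.restrictScalars k).comp ρ.asModuleEquiv.symm.toLinearMap
      have hf : ∀ g v, f (ρW g v) = ρ g (f v) := by
        intro g v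
        change ρ.asModuleEquiv ((Representation.ofModule' (k := k) (G := G) W g v : W) : ρ.asModule)
          = ρ g (ρ.asModuleEquiv (v : ρ.asModule))
        rw [ofModule'_apply, Submodule.coe_smul, MonoidAlgebra.of_apply,
          Representation.asModuleEquiv_map_smul, Representation.asAlgebraHom_single, one_smul]
      have hh : ∀ g v, h (ρ g v) = ρQ g (h v) := by
        intro g v
        change W.mkQ (ρ.asModuleEquiv.symm (ρ g v))
          = Representation.ofModule' (k := k) (G := G) (ρ.asModule ⧸ W) g
              (W.mkQ (ρ.asModuleEquiv.symm v))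
        rw [ofModule'_apply, Representation.asModuleEquiv_symm_map_rho, map_smul]
      have hinj : Function.Injective f := by
        intro x y hxy
        apply Subtype.ext
        exact ρ.asModuleEquiv.injective hxy
      have hsurj : Function.Surjective h := by
        intro y
        obtain ⟨x, rfl⟩ := W.mkQ_surjective y
        exact ⟨ρ.asModuleEquiv x, by simp [h]⟩
      have hex : Function.Exact f h := by
        intro y
        constructor
        · intro hy
          have : ρ.asModuleEquiv.symm y ∈ W := by
            rw [← Submodule.Quotient.mk_eq_zero]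
            exact hy
          exact ⟨⟨_, this⟩, by simp [f]⟩
        · rintro ⟨x, rfl⟩
          change W.mkQ (ρ.asModuleEquiv.symm (ρ.asModuleEquiv (x : ρ.asModule))) = 0
          rw [LinearEquiv.symm_apply_apply, Submodule.mkQ_apply, Submodule.Quotient.mk_eq_zero]
          exact x.2
      have h1 := Φ.val_exact ρW ρ ρQ f h hf hh hinj hsurj hex
      have h2 : Φ.val W ρW = Φ.val (F.S i) (F.rep i) := by
        refine Φ.val_congr ρW (F.rep i) (eW.restrictScalars k) ?_
        intro g v
        change eW (Representation.ofModule' (k := k) (G := G) W g v)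
          = Representation.ofModule' (k := k) (G := G) (F.S i) g (eW v)
        rw [ofModule'_apply, ofModule'_apply, map_smul]
      rw [h1, h2, hm2 Φ]
      simp only [Pi.add_apply, Nat.cast_add, add_mul, Finset.sum_add_distrib]
      rw [add_comm]
      congr 1
      rw [Finset.sum_eq_single i]
      · simp
      · intro j _ hj
        simp [hj]
      · intro hi
        exact (hi (Finset.mem_univ i)).elim

end Main

end Fermat.Agent.TW.Euler.BN
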