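/-
Program G (S56), block GW-Euler, node (EU-1a) Brauer–Nesbitt form.  helper7.
(BN-FAM): a complete irredundant finite family of simple `k[G]`-modules exists for finite
`k`, `G`: quotients of `k[G]` by maximal left ideals, one per isomorphism class.
-/
import Fermat.Agent.TW.Euler.BN.Core

set_option autoImplicit false
set_option linter.style.haveILetI false

namespace Fermat.Agent.TW.Euler.BN

open Polynomial

section Fam

variable (k G : Type) [Field k] [Finite k] [Group G] [Finite G]

/-- maximal left ideals of `k[G]` -/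
abbrev MaxIdeal : Type := {I : Ideal (MonoidAlgebra k G) // I.IsMaximal}

/-- isomorphism of the quotients -/
def maxIdealSetoid : Setoid (MaxIdeal k G) where
  r I J := Nonempty ((MonoidAlgebra k G ⧸ I.1) ≃ₗ[MonoidAlgebra k G] (MonoidAlgebra k G ⧸ J.1))
  iseqv := ⟨fun _ => ⟨LinearEquiv.refl _ _⟩, fun ⟨e⟩ => ⟨e.symm⟩, fun ⟨e⟩ ⟨f⟩ => ⟨e.trans f⟩⟩

theorem finite_monoidAlgebra : Finite (MonoidAlgebra k G) :=
  Finite.of_equiv (G → k) (Finsupp.equivFunOnFinite.symm.trans MonoidAlgebra.coeffEquiv.symm)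

theorem finite_ideal_monoidAlgebra : Finite (Ideal (MonoidAlgebra k G)) :=
  haveI := finite_monoidAlgebra k G
  Finite.of_injective (fun I : Ideal (MonoidAlgebra k G) => (I : Set (MonoidAlgebra k G)))
    SetLike.coe_injective

omit [Finite k] [Finite G] in
theorem isSimpleModule_quot_of_isMaximal (I : Ideal (MonoidAlgebra k G)) (hI : I.IsMaximal) :
    IsSimpleModule (MonoidAlgebra k G) (MonoidAlgebra k G ⧸ I) :=
  isSimpleModule_iff_quot_maximal.mpr ⟨I, hI, ⟨LinearEquiv.refl _ _⟩⟩

end Fam

theorem bnFamOut : BNFamOut := by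
  intro k G _ _ _ _
  classical
  haveI := finite_monoidAlgebra k G
  haveI := finite_ideal_monoidAlgebra k G
  haveI : Fintype (Quotient (maxIdealSetoid k G)) := Fintype.ofFinite _
  refine ⟨{ ι := Quotient (maxIdealSetoid k G)
            S := fun q => MonoidAlgebra k G ⧸ (Quotient.out q).1
            simple := fun q => isSimpleModule_quot_of_isMaximal k G _ (Quotient.out q).2
            irredundant := ?_ }, ?_⟩
  · intro q q' h
    rw [← Quotient.out_eq q, ← Quotient.out_eq q']
    exact Quotient.sound h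
  · intro T _ _ _ _
    obtain ⟨I, hI, ⟨e⟩⟩ := isSimpleModule_iff_quot_maximal.mp
      (inferInstance : IsSimpleModule (MonoidAlgebra k G) T)
    refine ⟨(⟦⟨I, hI⟩⟧ : Quotient (maxIdealSetoid k G)), ?_⟩
    obtain ⟨f⟩ := Quotient.exact (Quotient.out_eq (⟦⟨I, hI⟩⟧ : Quotient (maxIdealSetoid k G)))
    exact ⟨e.trans f.symm⟩

end Fermat.Agent.TW.Euler.BN
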