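/-
Program G (S56), block GW-Euler, node (EU-1a) Brauer–Nesbitt form.  helper7.
Wrapper: `BNFamOut → BNExOut → BrauerNesbittOut` (helper8's literal contract), via (BN-KL).
-/
import Fermat.Agent.TW.Euler.BN.Core

set_option autoImplicit false

namespace Fermat.Agent.TW.Euler.BN

open Polynomial

theorem span_range_of (k G : Type) [Field k] [Group G] :
    Submodule.span k (Set.range (MonoidAlgebra.of k G)) = ⊤ := by
  rw [eq_top_iff]
  rintro x -
  induction x using MonoidAlgebra.induction_on with
  | of g => exact Submodule.subset_span ⟨g, rfl⟩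
  | add a b ha hb => exact Submodule.add_mem _ ha hb
  | smul r a ha => exact Submodule.smul_mem _ r ha

theorem brauerNesbittOut_of (hfam : BNFamOut) (hex : BNExOut) : BrauerNesbittOut := by
  intro k G _ _ _ _ Φ V W _ _ _ _ _ _ ρ σ h
  obtain ⟨F, hF⟩ := hfam k G
  obtain ⟨m, hm1, hm2⟩ := hex k G F hF V ρ
  obtain ⟨n, hn1, hn2⟩ := hex k G F hF W σ
  have : m = n := eq_of_prod_chi_eq k F.S (Gs := Set.range (MonoidAlgebra.of k G))
    (span_range_of k G) F.irredundant m n (by
      rintro _ ⟨g, rfl⟩
      rw [← hm1, ← hn1, h])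
  rw [hm2, hn2, this]

end Fermat.Agent.TW.Euler.BN
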