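/-
Program G (S56), block GW-Euler, node (EU-1a) Brauer–Nesbitt form: final assembly.
`brauerNesbittOut : BrauerNesbittOut` (helper8's literal contract) from
(BN-LI)+(BN-KL)+(BN-FAM) [helper7] and (BN-EX) [helper6].
-/
import Fermat.Agent.TW.Euler.BN.Wrapper
import Fermat.Agent.TW.Euler.BN.Family
import Fermat.Agent.TW.Euler.BN.Exist

set_option autoImplicit false

namespace Fermat.Agent.TW.Euler.BN

/-- **(EU-1a)** the Brauer–Nesbitt form, hypothesis-free. -/
theorem brauerNesbittOut : BrauerNesbittOut :=
  brauerNesbittOut_of bnFamOut bnExOut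

end Fermat.Agent.TW.Euler.BN
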